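import Mathlib

/-!
# S26 / P8 CURVES, leaf L1 = C2 : going-down for integral extensions of integrally closed domains

`S` an integrally closed domain, `R` a domain, `S → R` injective and integral.
Then `R` has going-down over `S`.

This is already a Mathlib instance (`Mathlib/RingTheory/IntegralClosure/GoingDown.lean`,
Stacks 00H8); we only record it under a stable name, together with the height formula that
the other leaves need (`Ideal.height_eq_height_add_of_liesOver_of_hasGoingDown`).
-/

set_option autoImplicit false

namespace Fermat.Agent.S26.Curves.H503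
/-- **C2 (going-down).** An injective integral extension `S → R` of domains with `S` integrally
closed satisfies going-down. -/
theorem c2_hasGoingDown (S R : Type*) [CommRing S] [CommRing R] [Algebra S R] [IsDomain R]
    [IsIntegrallyClosed S] [Algebra.IsIntegral S R]
    (hinj : Function.Injective (algebraMap S R)) : Algebra.HasGoingDown S R := by
  have : FaithfulSMul S R := (faithfulSMul_iff_algebraMap_injective S R).mpr hinj
  infer_instance

/-- **C2, usable form.** For primes `p ≤ q` of `S` and a prime `Q` of `R` over `q`, there is a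
prime `P ≤ Q` of `R` over `p`. -/
theorem c2_exists_le_comap_eq (S R : Type*) [CommRing S] [CommRing R] [Algebra S R] [IsDomain R]
    [IsIntegrallyClosed S] [Algebra.IsIntegral S R]
    (hinj : Function.Injective (algebraMap S R))
    (p q : Ideal S) [p.IsPrime] [q.IsPrime] (hpq : p ≤ q)
    (Q : Ideal R) [Q.IsPrime] (hQ : Q.comap (algebraMap S R) = q) :
    ∃ P : Ideal R, P.IsPrime ∧ P ≤ Q ∧ P.comap (algebraMap S R) = p := by
  have := c2_hasGoingDown S R hinj
  have : Q.LiesOver q := ⟨hQ.symm⟩
  obtain ⟨P, hPQ, hP, hPp⟩ := Ideal.exists_ideal_le_liesOver_of_le (p := p) (q := q) Q hpq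
  exact ⟨P, hP, hPQ, hPp.over.symm⟩

/-- **C2, height form.** In the situation of C2 with `R` Noetherian, a prime `Q` of `R` has the
same height as its contraction to `S` (both rings Noetherian). -/
theorem c2_height_comap_eq (S R : Type*) [CommRing S] [CommRing R] [Algebra S R] [IsDomain R]
    [IsNoetherianRing S] [IsNoetherianRing R] [IsIntegrallyClosed S] [Algebra.IsIntegral S R]
    (hinj : Function.Injective (algebraMap S R))
    (Q : Ideal R) [Q.IsPrime] :
    Q.height = (Q.comap (algebraMap S R)).height := by
  have := c2_hasGoingDown S R hinj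
  have hlo : Q.LiesOver (Q.comap (algebraMap S R)) := ⟨rfl⟩
  have hmin : Q ∈ ((Q.comap (algebraMap S R)).map (algebraMap S R)).minimalPrimes :=
    Ideal.IsIntegral.mem_minimalPrimes_map_under (R := S) Q
  rw [Ideal.height_eq_height_add_of_liesOver_of_hasGoingDown (Q.comap (algebraMap S R)) Q]
  suffices h : (Q.map (Ideal.Quotient.mk
      ((Q.comap (algebraMap S R)).map (algebraMap S R)))).height = 0 by
    rw [h, add_zero]
  set I := (Q.comap (algebraMap S R)).map (algebraMap S R) with hI
  have hIQ : I ≤ Q := Ideal.map_comap_le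
  have hprime : (Q.map (Ideal.Quotient.mk I)).IsPrime :=
    Ideal.map_isPrime_of_surjective Ideal.Quotient.mk_surjective (by rwa [Ideal.mk_ker])
  rw [Ideal.height_eq_zero_iff]
  -- `Q / I` is a minimal prime of `R / I`
  refine ⟨⟨hprime, bot_le⟩, ?_⟩
  rintro J ⟨hJ, -⟩ hJQ
  have hc : J.comap (Ideal.Quotient.mk I) ≤ Q := by
    have := Ideal.comap_mono (f := Ideal.Quotient.mk I) hJQ
    rwa [Ideal.comap_map_of_surjective _ Ideal.Quotient.mk_surjective,
      ← RingHom.ker_eq_comap_bot, Ideal.mk_ker, sup_eq_left.mpr hIQ] at this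
  have hIc : I ≤ J.comap (Ideal.Quotient.mk I) := by
    intro x hx
    rw [Ideal.mem_comap, Ideal.Quotient.eq_zero_iff_mem.mpr hx]
    exact zero_mem _
  have hQc : Q ≤ J.comap (Ideal.Quotient.mk I) :=
    hmin.2 ⟨Ideal.comap_isPrime _ _, hIc⟩ hc
  calc Q.map (Ideal.Quotient.mk I) ≤ (J.comap (Ideal.Quotient.mk I)).map (Ideal.Quotient.mk I) :=
        Ideal.map_mono hQc
    _ ≤ J := Ideal.map_comap_le

end Fermat.Agent.S26.Curves.H503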