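import Mathlib

/-!
# S26 / P8 CURVES, leaf L2 = C3 (core): curve selection in a Noetherian domain

`c3_exists_prime_covBy_notMem`: in a Noetherian domain `R`, for every nonzero prime `m` and every
nonzero element `h` there is a prime `p < m` with `h ∉ p` such that no prime lies strictly between
`p` and `m` (so `(R/p)_m` is a one-dimensional local domain).
-/

set_option autoImplicit false

namespace Fermat.Agent.S26.Curves.H503
open Ideal

/-- Auxiliary: in a Noetherian domain, if every nonzero prime below the prime `m` contains the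
nonzero element `h`, then every nonzero prime below `m` equals `m`. -/
theorem c3_eq_of_forall_mem {R : Type*} [CommRing R] [IsNoetherianRing R] [IsDomain R]
    (m : Ideal R) [hm : m.IsPrime] (h : R) (hh : h ≠ 0)
    (H : ∀ q : Ideal R, q.IsPrime → q ≠ ⊥ → q ≤ m → h ∈ q)
    (q : Ideal R) (hq : q.IsPrime) (hq0 : q ≠ ⊥) (hqm : q ≤ m) : q = m := by
  classical
  by_contra hne
  have hqlt : q < m := lt_of_le_of_ne hqm hne
  have hhm : h ∈ m := hqm (H q hq hq0 hqm)
  -- height of `m` is at least 2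
  have hbq : (⊥ : Ideal R) < q := bot_lt_iff_ne_bot.mpr hq0
  have h1 : (⊥ : Ideal R).height + 1 ≤ q.height :=
    Ideal.height_add_one_le_of_lt_of_isPrime hbq
  have h2 : q.height + 1 ≤ m.height := Ideal.height_add_one_le_of_lt_of_isPrime hqlt
  have hm2 : (2 : ℕ∞) ≤ m.height := by
    have : (1 : ℕ∞) ≤ q.height := le_trans (by simp) h1
    calc (2 : ℕ∞) = 1 + 1 := by norm_num
      _ ≤ q.height + 1 := by gcongr
      _ ≤ m.height := h2
  -- the minimal primes over `(h)`
  have hfin : (Ideal.span {h}).minimalPrimes.Finite :=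
    Ideal.finite_minimalPrimes_of_isNoetherianRing R _
  have hht : ∀ P ∈ (Ideal.span {h}).minimalPrimes, P.height ≤ 1 := fun P hP =>
    Ideal.height_le_one_of_isPrincipal_of_mem_minimalPrimes _ P hP
  have hnot : ¬ ((m : Set R) ⊆ ⋃ P ∈ (hfin.toFinset : Set (Ideal R)), (P : Set R)) := by
    intro hsub
    have hprime : ∀ i ∈ hfin.toFinset, i ≠ (⊥ : Ideal R) → i ≠ (⊥ : Ideal R) → IsPrime (id i) := by
      intro i hi _ _
      exact ((Set.Finite.mem_toFinset hfin).mp hi).1.1
    obtain ⟨P, hP, hmP⟩ := (Ideal.subset_union_prime (f := id) (⊥ : Ideal R) ⊥ hprime).mp hsub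
    have hP' := (Set.Finite.mem_toFinset hfin).mp hP
    have := le_trans (Ideal.height_mono hmP) (hht P hP')
    have h21 : (2 : ℕ∞) ≤ 1 := le_trans hm2 this
    exact absurd h21 (by norm_num)
  obtain ⟨f, hfm, hf⟩ := Set.not_subset.mp hnot
  have hfP : ∀ P ∈ (Ideal.span {h}).minimalPrimes, f ∉ P := by
    intro P hP hfP
    apply hf
    simp only [Set.mem_iUnion, SetLike.mem_coe, exists_prop]
    exact ⟨P, (Set.Finite.mem_toFinset hfin).mpr hP, hfP⟩
  -- a minimal prime over `(h)` below `m`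
  obtain ⟨P₀, hP₀, -⟩ := Ideal.exists_minimalPrimes_le
    (show Ideal.span {h} ≤ m from (Ideal.span_singleton_le_iff_mem _).mpr hhm)
  have hf0 : f ≠ 0 := by
    rintro rfl
    exact hfP P₀ hP₀ (zero_mem _)
  -- a minimal prime `Q` over `(f)` below `m`
  obtain ⟨Q, hQ, hQm⟩ := Ideal.exists_minimalPrimes_le
    (show Ideal.span {f} ≤ m from (Ideal.span_singleton_le_iff_mem _).mpr hfm)
  have hQp : Q.IsPrime := hQ.1.1
  have hfQ : f ∈ Q := hQ.1.2 (Ideal.mem_span_singleton_self f)
  have hQ0 : Q ≠ ⊥ := by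
    rintro rfl
    exact hf0 (by simpa using hfQ)
  have hQht : Q.height ≤ 1 := Ideal.height_le_one_of_isPrincipal_of_mem_minimalPrimes _ Q hQ
  have hhQ : h ∈ Q := H Q hQp hQ0 hQm
  obtain ⟨P, hP, hPQ⟩ := Ideal.exists_minimalPrimes_le
    (show Ideal.span {h} ≤ Q from (Ideal.span_singleton_le_iff_mem _).mpr hhQ)
  have hPp : P.IsPrime := hP.1.1
  have hhP : h ∈ P := hP.1.2 (Ideal.mem_span_singleton_self h)
  have hP0 : P ≠ ⊥ := by
    rintro rfl
    exact hh (by simpa using hhP)
  have hPQeq : P = Q := by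
    by_contra hPQne
    have hlt : P < Q := lt_of_le_of_ne hPQ hPQne
    have hbP : (⊥ : Ideal R) < P := bot_lt_iff_ne_bot.mpr hP0
    have e1 : (⊥ : Ideal R).height + 1 ≤ P.height :=
      Ideal.height_add_one_le_of_lt_of_isPrime hbP
    have e2 : P.height + 1 ≤ Q.height := Ideal.height_add_one_le_of_lt_of_isPrime hlt
    have : (1 : ℕ∞) ≤ P.height := le_trans (by simp) e1
    have h21 : (2 : ℕ∞) ≤ 1 :=
      calc (2 : ℕ∞) = 1 + 1 := by norm_num
        _ ≤ P.height + 1 := by gcongr
        _ ≤ Q.height := e2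
        _ ≤ 1 := hQht
    exact absurd h21 (by norm_num)
  exact hfP P hP (hPQeq ▸ hfQ)

/-- **Curve selection (algebraic core).** In a Noetherian domain `R`, for a nonzero prime `m` and
a nonzero element `h`, there is a prime `p < m` not containing `h` with no prime strictly between
`p` and `m`. -/
theorem c3_exists_prime_covBy_notMem {R : Type*} [CommRing R] [IsNoetherianRing R] [IsDomain R]
    (m : Ideal R) [hm : m.IsPrime] (hm0 : m ≠ ⊥) (h : R) (hh : h ≠ 0) :
    ∃ p : Ideal R, p.IsPrime ∧ p < m ∧ h ∉ p ∧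
      ∀ q : Ideal R, q.IsPrime → p < q → q ≤ m → q = m := by
  classical
  -- replace `h` by an element of `m`
  obtain ⟨h', hh'm, hh'0⟩ := Submodule.exists_mem_ne_zero_of_ne_bot hm0
  set h₁ : R := h * h' with hh₁
  have hh₁0 : h₁ ≠ 0 := mul_ne_zero hh hh'0
  have hh₁m : h₁ ∈ m := Ideal.mul_mem_left _ _ hh'm
  -- a maximal prime below `m` avoiding `h₁`
  let S : Set (Ideal R) := {p | p.IsPrime ∧ p ≤ m ∧ h₁ ∉ p}
  have hS : S.Nonempty := ⟨⊥, Ideal.isPrime_bot, bot_le, by simpa using hh₁0⟩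
  obtain ⟨p, hpS, hpmax⟩ := set_has_maximal_iff_noetherian.mpr (inferInstance : IsNoetherian R R) S hS
  obtain ⟨hp, hpm, hhp⟩ := hpS
  have := hp
  have hpne : p ≠ m := by
    rintro rfl
    exact hhp hh₁m
  have hplt : p < m := lt_of_le_of_ne hpm hpne
  refine ⟨p, hp, hplt, fun hmem => hhp (Ideal.mul_mem_right _ _ hmem), ?_⟩
  intro q hq hpq hqm
  -- pass to the quotient `R ⧸ p`
  let π := Ideal.Quotient.mk p
  have hπ : Function.Surjective π := Ideal.Quotient.mk_surjective
  have : (m.map π).IsPrime :=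
    Ideal.map_isPrime_of_surjective hπ (by rw [Ideal.mk_ker]; exact hpm)
  have hq'p : (q.map π).IsPrime :=
    Ideal.map_isPrime_of_surjective hπ (by rw [Ideal.mk_ker]; exact hpq.le)
  have hcm : ∀ I : Ideal R, p ≤ I → (I.map π).comap π = I := by
    intro I hI
    rw [Ideal.comap_map_of_surjective π hπ, ← RingHom.ker_eq_comap_bot, Ideal.mk_ker]
    exact sup_eq_left.mpr hI
  have hH : ∀ q' : Ideal (R ⧸ p), q'.IsPrime → q' ≠ ⊥ → q' ≤ m.map π → π h₁ ∈ q' := by
    intro q' hq' hq'0 hq'm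
    by_contra hnot
    have hc : q'.comap π ∈ S := by
      refine ⟨Ideal.comap_isPrime π q', ?_, hnot⟩
      calc q'.comap π ≤ (m.map π).comap π := Ideal.comap_mono hq'm
        _ = m := hcm m hpm
    have hple : p ≤ q'.comap π := by
      intro x hx
      rw [Ideal.mem_comap]
      have : π x = 0 := Ideal.Quotient.eq_zero_iff_mem.mpr hx
      rw [this]; exact zero_mem _
    have hnlt : ¬ p < q'.comap π := hpmax _ hc
    have heq : p = q'.comap π := by
      by_contra hne'
      exact hnlt (lt_of_le_of_ne hple hne')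
    apply hq'0
    rw [eq_bot_iff]
    intro y hy
    obtain ⟨x, rfl⟩ := hπ y
    have : x ∈ p := by rw [heq]; exact hy
    simpa using Ideal.Quotient.eq_zero_iff_mem.mpr this
  have hq'0 : q.map π ≠ ⊥ := by
    intro h0
    rw [Ideal.map_eq_bot_iff_le_ker, Ideal.mk_ker] at h0
    exact absurd hpq (not_lt_of_ge h0)
  have hπh : π h₁ ≠ 0 := fun h0 => hhp (Ideal.Quotient.eq_zero_iff_mem.mp h0)
  have key := c3_eq_of_forall_mem (m.map π) (π h₁) hπh hH (q.map π) hq'p hq'0 (Ideal.map_mono hqm)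
  calc q = (q.map π).comap π := (hcm q hpq.le).symm
    _ = (m.map π).comap π := by rw [key]
    _ = m := hcm m hpm

end Fermat.Agent.S26.Curves.H503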