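import Mathlib
import Fermat.Agent.S26.Curves.H503.C2
import Fermat.Agent.S26.Curves.H503.C3Core
/-!
# S26 / P8 CURVES, leaf L2 = C3 : affine curve selection

* `c3_height_mvPolynomial` : maximal ideals of `K[x_1..x_d]` have height `d`.
* `c3_height_eq_trdeg` : in a finitely generated domain `R` over a field `K`, all maximal ideals
  have height `trdeg_K R`.
* `c3_exists_prime_trdeg_one` : **C3**. `R` a f.g. `K`-domain with `1 ≤ trdeg_K R`, `m` maximal,
  `h ≠ 0`; then there is a prime `p ≤ m` with `h ∉ p` and `trdeg_K (R/p) = 1`.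
-/

set_option autoImplicit false

namespace Fermat.Agent.S26.Curves.H503
open Ideal

/-- Maximal ideals of `K[x_1, …, x_d]` have height `d`. -/
theorem c3_height_mvPolynomial (K : Type*) [Field K] :
    ∀ (d : ℕ) (m : Ideal (MvPolynomial (Fin d) K)) [m.IsMaximal], m.height = d
  | 0, m, hm => by
      let e : MvPolynomial (Fin 0) K ≃+* K := (MvPolynomial.isEmptyRingEquiv K (Fin 0))
      have hbot : m = ⊥ := by
        rw [eq_bot_iff]
        intro x hx
        by_contra hx0
        have hx0' : x ≠ 0 := by simpa using hx0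
        have hex : e x ≠ 0 := fun h0 => hx0' (by simpa using h0)
        have hu : IsUnit x := by
          have : IsUnit (e x) := isUnit_iff_ne_zero.mpr hex
          exact (MulEquiv.isUnit_map e.toMulEquiv).mp this
        exact hm.ne_top (Ideal.eq_top_of_isUnit_mem _ hx hu)
      rw [hbot, Ideal.height_bot]
      simp
  | d + 1, m, hm => by
      let e : MvPolynomial (Fin (d + 1)) K ≃+* Polynomial (MvPolynomial (Fin d) K) :=
        (MvPolynomial.finSuccEquiv K d).toRingEquiv
      let P : Ideal (Polynomial (MvPolynomial (Fin d) K)) := m.comap e.symm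
      have hP : P.IsMaximal := Ideal.comap_isMaximal_of_equiv e.symm
      have hPh : P.height = m.height := RingEquiv.height_comap e.symm m
      let p : Ideal (MvPolynomial (Fin d) K) := P.comap (Polynomial.C)
      have hp : p.IsMaximal := Polynomial.isMaximal_comap_C_of_isJacobsonRing P
      have hlo : P.LiesOver p := ⟨rfl⟩
      have h1 := Polynomial.height_eq_height_add_one p P
      have h2 := c3_height_mvPolynomial K d p
      rw [← hPh, h1, h2]
      push_cast
      rfl

/-- In a finitely generated domain over a field, all maximal ideals have height equal to the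
transcendence degree. -/
theorem c3_height_eq_trdeg (K : Type*) [Field K] (R : Type*) [CommRing R] [IsDomain R]
    [Algebra K R] [Algebra.FiniteType K R] :
    ∃ d : ℕ, Algebra.trdeg K R = d ∧ ∀ m : Ideal R, m.IsMaximal → m.height = d := by
  obtain ⟨d, g, hinj, hfin⟩ := exists_finite_inj_algHom_of_fg K R
  let _ : Algebra (MvPolynomial (Fin d) K) R := g.toRingHom.toAlgebra
  have hst : IsScalarTower K (MvPolynomial (Fin d) K) R :=
    IsScalarTower.of_algebraMap_eq (fun x => (g.commutes x).symm)
  have hmf : Module.Finite (MvPolynomial (Fin d) K) R := hfin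
  have hint : Algebra.IsIntegral (MvPolynomial (Fin d) K) R := inferInstance
  have hinj' : Function.Injective (algebraMap (MvPolynomial (Fin d) K) R) := hinj
  have hfs : FaithfulSMul (MvPolynomial (Fin d) K) R :=
    (faithfulSMul_iff_algebraMap_injective _ _).mpr hinj'
  have hnoeth : IsNoetherianRing R := Algebra.FiniteType.isNoetherianRing K R
  refine ⟨d, ?_, ?_⟩
  · have h := lift_trdeg_add_eq K (MvPolynomial (Fin d) K) R
    have h0 : Algebra.trdeg (MvPolynomial (Fin d) K) R = 0 := trdeg_eq_zero
    rw [MvPolynomial.trdeg_of_isDomain, h0] at h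
    simp only [Cardinal.mk_fintype, Fintype.card_fin, Cardinal.lift_natCast, Cardinal.lift_zero,
      add_zero] at h
    exact (Cardinal.lift_eq_nat_iff.mp h.symm)
  · intro m hm
    have := c2_height_comap_eq (MvPolynomial (Fin d) K) R hinj' m
    rw [this]
    have hmax : (m.comap (algebraMap (MvPolynomial (Fin d) K) R)).IsMaximal :=
      Ideal.isMaximal_comap_of_isIntegral_of_isMaximal m
    exact c3_height_mvPolynomial K d _

/-- **C3 (affine curve selection).** `R` a finitely generated domain over a field `K` of
transcendence degree at least one, `m` a maximal ideal, `h ≠ 0`.  Then there is a prime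
`p ≤ m` with `h ∉ p` and `trdeg_K (R/p) = 1`. -/
theorem c3_exists_prime_trdeg_one (K : Type*) [Field K] (R : Type*) [CommRing R] [IsDomain R]
    [Algebra K R] [Algebra.FiniteType K R] (htr : 1 ≤ Algebra.trdeg K R)
    (m : Ideal R) [hm : m.IsMaximal] (h : R) (hh : h ≠ 0) :
    ∃ p : Ideal R, p.IsPrime ∧ p ≤ m ∧ h ∉ p ∧ Algebra.trdeg K (R ⧸ p) = 1 := by
  have hnoeth : IsNoetherianRing R := Algebra.FiniteType.isNoetherianRing K R
  have hm0 : m ≠ ⊥ := by
    rintro rfl
    obtain ⟨d, hd, hht⟩ := c3_height_eq_trdeg K R
    have h0 := hht ⊥ hm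
    rw [Ideal.height_bot] at h0
    have hd0 : d = 0 := by exact_mod_cast h0.symm
    rw [hd, hd0] at htr
    simp at htr
  obtain ⟨p, hp, hpm, hhp, hcov⟩ := c3_exists_prime_covBy_notMem m hm0 h hh
  refine ⟨p, hp, hpm.le, hhp, ?_⟩
  let π := Ideal.Quotient.mk p
  have hπ : Function.Surjective π := Ideal.Quotient.mk_surjective
  have hcm : ∀ I : Ideal R, p ≤ I → (I.map π).comap π = I := by
    intro I hI
    rw [Ideal.comap_map_of_surjective π hπ, ← RingHom.ker_eq_comap_bot, Ideal.mk_ker]
    exact sup_eq_left.mpr hI
  have hm' : (m.map π).IsMaximal :=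
    Ideal.IsMaximal.map_of_surjective_of_ker_le hπ (by rw [Ideal.mk_ker]; exact hpm.le)
  obtain ⟨d', hd', hht'⟩ := c3_height_eq_trdeg K (R ⧸ p)
  have hheight : (m.map π).height = 1 := by
    apply le_antisymm
    · have hprime : (m.map π).IsPrime := hm'.isPrime
      rw [show (1 : ℕ∞) = ((1 : ℕ) : ℕ∞) from rfl, Ideal.height_le_iff]
      intro q' hq' hq'lt
      have hq : (q'.comap π).IsPrime := Ideal.comap_isPrime π q'
      have hple : p ≤ q'.comap π := by
        intro x hx
        rw [Ideal.mem_comap, Ideal.Quotient.eq_zero_iff_mem.mpr hx]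
        exact zero_mem _
      have hqm : q'.comap π ≤ m := by
        calc q'.comap π ≤ (m.map π).comap π := Ideal.comap_mono hq'lt.le
          _ = m := hcm m hpm.le
      have hqne : q'.comap π ≠ m := by
        intro heq
        have : q' = m.map π := by
          rw [← heq, Ideal.map_comap_of_surjective π hπ]
        exact absurd this hq'lt.ne
      have hqp : q'.comap π = p := by
        by_contra hne
        exact hqne (hcov _ hq (lt_of_le_of_ne hple (Ne.symm hne)) hqm)
      have hq'bot : q' = ⊥ := by
        rw [← Ideal.map_comap_of_surjective π hπ q', hqp, Ideal.map_eq_bot_iff_le_ker,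
          Ideal.mk_ker]
      rw [hq'bot, Ideal.height_bot]
      norm_num
    · have hne : m.map π ≠ ⊥ := by
        intro h0
        rw [Ideal.map_eq_bot_iff_le_ker, Ideal.mk_ker] at h0
        exact absurd hpm (not_lt_of_ge h0)
      have h0 : (m.map π).height ≠ 0 := fun h0 => hne (Ideal.height_eq_zero_iff_eq_bot.mp h0)
      exact Order.one_le_iff_pos.mpr (pos_iff_ne_zero.mpr h0)
  have h1 := hht' _ hm'
  rw [hheight] at h1
  have hd1 : d' = 1 := by exact_mod_cast h1.symm
  rw [hd', hd1]
  simp

end Fermat.Agent.S26.Curves.H503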